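/-
GATE-E / GE9-ETA-MULT1 (helper63) — file (d): **base change `ℤ → O` of a joint kernel of integer
operators** (Mathlib only).

`Λ` a `ℤ`-module with a finite basis `β`, `O` a domain of characteristic `0`, `M` an `O`-module with
a basis `β'`, `j : Λ →+ M` with `j (β i) = β' i` (e.g. `M = O ⊗[ℤ] Λ`, `j = 1 ⊗ₜ ·`).  For ANY family
of operators `D s` on `Λ`, `D' s` on `M` with `D' s ∘ j = j ∘ D s`:

* `mem_span_of_forall_ker` : `⋂ ker D' s = O-span of j (⋂ ker D s)`   (flatness of `ℤ → O`, proved by
  the "finite `ℤ`-span of the coordinates" trick: no tensor products, no finiteness of the family);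
* `finrank_le_of_le_iInf_ker`, `finrank_iInf_ker_le` :
  `finrank_O P' ≤ finrank_ℤ (⋂ ker D s)` for every `P' ≤ ⋂ ker D' s`.
-/
import Mathlib

set_option autoImplicit false

namespace Fermat.Agent.GE9.Mult1

open Submodule

variable {O : Type*} [CommRing O] [IsDomain O] [CharZero O]
  {Λ : Type*} [AddCommGroup Λ] {M : Type*} [AddCommGroup M] [Module O M]
  {ι : Type*} [Fintype ι]

omit [IsDomain O] [CharZero O] [Fintype ι] in
/-- coordinates of `j z` are the integer coordinates of `z`. -/
theorem repr_j (β : Module.Basis ι ℤ Λ) (β' : Module.Basis ι O M) (j : Λ →+ M)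
    (hj : ∀ i, j (β i) = β' i) (z : Λ) (i : ι) :
    β'.repr (j z) i = ((β.repr z i : ℤ) : O) := by
  classical
  have h1 : j z = (β.repr z).sum fun k a => (a : O) • β' k := by
    conv_lhs => rw [← β.linearCombination_repr z, Finsupp.linearCombination_apply]
    rw [Finsupp.sum, map_sum]
    refine Finset.sum_congr rfl fun k _ => ?_
    rw [map_zsmul, hj]
    show (β.repr z) k • β' k = ((β.repr z k : ℤ) : O) • β' k
    rw [Int.cast_smul_eq_zsmul]
  rw [h1, Finsupp.sum, map_sum, Finsupp.coe_finsetSum, Finset.sum_apply]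
  simp only [map_smul, Module.Basis.repr_self, Finsupp.smul_apply, Finsupp.single_apply,
    smul_eq_mul, mul_ite, mul_one, mul_zero]
  rw [Finset.sum_ite_eq']
  by_cases hi : i ∈ (β.repr z).support
  · rw [if_pos hi]
  · rw [if_neg hi, Finsupp.notMem_support_iff.mp hi, Int.cast_zero]

/-- **flat base change of a joint kernel**: every `y ∈ ⋂ ker D' s` is an `O`-combination of
images of elements of `⋂ ker D s`. -/
theorem mem_span_of_forall_ker (β : Module.Basis ι ℤ Λ) (β' : Module.Basis ι O M) (j : Λ →+ M)
    (hj : ∀ i, j (β i) = β' i) {S : Type*} (D : S → Λ →+ Λ) (D' : S → M →ₗ[O] M)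
    (hD : ∀ s x, D' s (j x) = j (D s x)) {y : M} (hy : ∀ s, D' s y = 0) :
    y ∈ span O (j '' {x : Λ | ∀ s, D s x = 0}) := by
  classical
  -- the coordinates of `y` and the finitely generated `ℤ`-module they span
  set c : ι → O := fun i => β'.repr y i with hc
  set F : Submodule ℤ O := span ℤ (Set.range c) with hF
  have hfin : Module.Finite ℤ F := Module.Finite.span_of_finite ℤ (Set.finite_range c)
  have hfree : Module.Free ℤ F := inferInstance
  let f := Module.Free.chooseBasis ℤ F
  have hcF : ∀ i, c i ∈ F := fun i => subset_span ⟨i, rfl⟩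
  -- integer coordinates
  let n : Module.Free.ChooseBasisIndex ℤ F → ι → ℤ := fun μ i => f.repr ⟨c i, hcF i⟩ μ
  have hcn : ∀ i, c i = ∑ μ, (n μ i : O) * ((f μ : F) : O) := by
    intro i
    have h1 := f.sum_repr ⟨c i, hcF i⟩
    have h2 := congrArg (fun w : F => (w : O)) h1
    simp only [Submodule.coe_sum, Submodule.coe_smul] at h2
    rw [← h2]
    refine Finset.sum_congr rfl fun μ _ => ?_
    rw [zsmul_eq_mul]
  -- the integral pieces of `y`
  let x : Module.Free.ChooseBasisIndex ℤ F → Λ := fun μ => ∑ i, n μ i • β i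
  have hjx : ∀ μ, j (x μ) = ∑ i, (n μ i : O) • β' i := by
    intro μ
    rw [map_sum]
    refine Finset.sum_congr rfl fun i _ => ?_
    rw [map_zsmul, hj, Int.cast_smul_eq_zsmul]
  have hy_eq : y = ∑ μ, ((f μ : F) : O) • j (x μ) := by
    conv_lhs => rw [← β'.sum_repr y]
    simp only [hjx, Finset.smul_sum, smul_smul]
    rw [Finset.sum_comm]
    refine Finset.sum_congr rfl fun i _ => ?_
    rw [← Finset.sum_smul]
    congr 1
    rw [show β'.repr y i = c i from rfl, hcn i]
    refine Finset.sum_congr rfl fun μ _ => ?_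
    rw [mul_comm]
  -- each piece lies in the joint kernel
  have hx : ∀ μ s, D s (x μ) = 0 := by
    intro μ s
    apply β.repr.injective
    rw [map_zero]
    ext i
    rw [Finsupp.zero_apply]
    -- the relation in `F`
    have h0 : D' s y = 0 := hy s
    rw [hy_eq, map_sum] at h0
    have h1 : ∑ ν, ((f ν : F) : O) • j (D s (x ν)) = 0 := by
      rw [← h0]
      refine Finset.sum_congr rfl fun ν _ => ?_
      rw [map_smul, hD]
    have h2 := congrArg (fun w => β'.repr w i) h1
    simp only [map_sum, map_smul, Finsupp.coe_finsetSum, Finset.sum_apply, Finsupp.smul_apply,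
      smul_eq_mul, map_zero, Finsupp.zero_apply, repr_j β β' j hj] at h2
    have h3 : ∑ ν, (β.repr (D s (x ν)) i) • f ν = 0 := by
      apply Subtype.ext
      rw [Submodule.coe_sum, Submodule.coe_zero, ← h2]
      refine Finset.sum_congr rfl fun ν _ => ?_
      rw [Submodule.coe_smul, zsmul_eq_mul, mul_comm]
    exact (Fintype.linearIndependent_iff.mp f.linearIndependent) _ h3 μ
  rw [hy_eq]
  refine Submodule.sum_mem _ fun μ _ => Submodule.smul_mem _ _ (subset_span ⟨x μ, hx μ, rfl⟩)

/-- **rank inequality under base change**, for any submodule of the joint kernel. -/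
theorem finrank_le_of_le_iInf_ker (β : Module.Basis ι ℤ Λ) (β' : Module.Basis ι O M) (j : Λ →+ M)
    (hj : ∀ i, j (β i) = β' i) {S : Type*} (D : S → Λ →ₗ[ℤ] Λ) (D' : S → M →ₗ[O] M)
    (hD : ∀ s x, D' s (j x) = j (D s x)) (P' : Submodule O M)
    (hP' : P' ≤ ⨅ s, LinearMap.ker (D' s)) :
    Module.finrank O P' ≤ Module.finrank ℤ (⨅ s, LinearMap.ker (D s) : Submodule ℤ Λ) := by
  classical
  set E : Submodule ℤ Λ := ⨅ s, LinearMap.ker (D s) with hE
  have hΛfin : Module.Finite ℤ Λ := Module.Finite.of_basis β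
  have hΛfree : Module.Free ℤ Λ := Module.Free.of_basis β
  have hEfin : Module.Finite ℤ E := inferInstance
  have hEfree : Module.Free ℤ E := inferInstance
  let e := Module.Free.chooseBasis ℤ E
  -- the joint kernel over `O` is spanned by the images of a basis of `E`
  let g : Module.Free.ChooseBasisIndex ℤ E → M := fun a => j (e a : Λ)
  have hle : P' ≤ span O (Set.range g) := by
    intro y hy
    have hy' : ∀ s, D' s y = 0 := fun s => by
      have := (Submodule.mem_iInf _).mp (hP' hy) s
      exact LinearMap.mem_ker.mp this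
    have h1 := mem_span_of_forall_ker β β' j hj (fun s => (D s).toAddMonoidHom) D'
      (fun s x => hD s x) hy'
    refine (span_le.mpr ?_) h1
    rintro _ ⟨x, hx, rfl⟩
    have hxE : x ∈ E := by
      rw [hE, Submodule.mem_iInf]
      intro s
      exact LinearMap.mem_ker.mpr (hx s)
    -- `x` is an integer combination of the basis of `E`
    have h2 := e.sum_repr ⟨x, hxE⟩
    have h3 : x = ∑ a, (e.repr ⟨x, hxE⟩ a) • (e a : Λ) := by
      have := congrArg (fun w : E => (w : Λ)) h2
      simp only [Submodule.coe_sum, Submodule.coe_smul] at this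
      exact this.symm
    show j x ∈ span O (Set.range g)
    rw [h3, map_sum]
    refine Submodule.sum_mem _ fun a _ => ?_
    rw [map_zsmul, ← Int.cast_smul_eq_zsmul O]
    exact Submodule.smul_mem _ _ (subset_span ⟨a, rfl⟩)
  have hgfin : Module.Finite O (span O (Set.range g)) :=
    Module.Finite.span_of_finite O (Set.finite_range g)
  calc Module.finrank O P' ≤ Module.finrank O (span O (Set.range g)) :=
        Submodule.finrank_mono hle
    _ ≤ Fintype.card (Module.Free.ChooseBasisIndex ℤ E) := finrank_range_le_card g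
    _ = Module.finrank ℤ E := (Module.finrank_eq_card_chooseBasisIndex ℤ E).symm

/-- **rank inequality under base change.** -/
theorem finrank_iInf_ker_le (β : Module.Basis ι ℤ Λ) (β' : Module.Basis ι O M) (j : Λ →+ M)
    (hj : ∀ i, j (β i) = β' i) {S : Type*} (D : S → Λ →ₗ[ℤ] Λ) (D' : S → M →ₗ[O] M)
    (hD : ∀ s x, D' s (j x) = j (D s x)) :
    Module.finrank O (⨅ s, LinearMap.ker (D' s) : Submodule O M) ≤
      Module.finrank ℤ (⨅ s, LinearMap.ker (D s) : Submodule ℤ Λ) :=
  finrank_le_of_le_iInf_ker β β' j hj D D' hD _ le_rfl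

end Fermat.Agent.GE9.Mult1
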