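/-
GATE-E / GE9-ETA-MULT1 (helper63) — file (a): **multiplicity one over `ℂ` for the FULL Hecke
algebra on `Hom_par(Γ₀(N), ℂ)`.**

`lam : Nat.Primes → ℂ`.  The joint eigenspace
`E_lam = {X ∈ Hom_par(Γ₀(N), ℂ) | cohGen N ℂ l X = lam l • X ∀ l}` (`T_l` for `l ∤ N`, `U_l` for
`l ∣ N`) is contained in `span_ℂ {per(f₀, 0), per(0, f₀)}` for ANY nonzero cusp form `f₀` with these
eigenvalues, and `E_lam = 0` if there is none.  Hence any three elements of `E_lam` are linearly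
dependent (`exists_rel_of_three`).

Inputs: Eichler–Shimura `S21` (`periodHomPair` injective with image `Hom_par`), Hecke equivariance
`periodHomPair_formOp`, and multiplicity one by `q`-expansion
`GB/B5/Point/Period.eq_smul_of_eigenvector`.
-/
import Mathlib
import Fermat.Agent.GB.B5.Point.Period

set_option autoImplicit false

open scoped MatrixGroups
open CongruenceSubgroup ModularCurve ModularCurve.Period CuspForm ModularFormClass

namespace Fermat.Agent.GE9.Mult1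

open Fermat.Agent.S16_helper49 Fermat.Agent.GJ.J2.Lat Fermat.Agent.GM.End
open Fermat.Agent.S49_helper65 Fermat.Agent.GB.B5.Point

variable {N : ℕ} [NeZero N]

/-- a parabolic joint eigenclass is the period pair of two cusp forms that are joint eigenvectors
of all `formOp N l` with the same eigenvalues. -/
theorem exists_eigen_pair (X : Additive (Gamma0 N) →+ ℂ)
    (hXpar : X ∈ parabolicHoms ℂ (Gamma0 N) ℂ) (lam : Nat.Primes → ℂ)
    (hX : ∀ l : Nat.Primes, cohGen N ℂ l X = lam l • X) :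
    ∃ f₁ f₂ : CuspForm (Gamma0 N) 2, periodHomPair N (f₁, f₂) = X ∧
      (∀ l : Nat.Primes, formOp N l f₁ = lam l • f₁) ∧
      (∀ l : Nat.Primes, formOp N l f₂ = lam l • f₂) := by
  have hXpar' := hXpar
  rw [← (Fermat.Agent.S21.result N).2] at hXpar'
  obtain ⟨⟨f₁, f₂⟩, hf⟩ := hXpar'
  have hinj := (Fermat.Agent.S21.result N).1
  have heig : ∀ l : Nat.Primes, formOp N l f₁ = lam l • f₁ ∧ formOp N l f₂ = lam l • f₂ := by
    intro l
    have h1 : periodHomPair N (formOp N l f₁, formOp N l f₂)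
        = periodHomPair N (lam l • (f₁, f₂)) := by
      rw [periodHomPair_formOp, hf, map_smul, hf]
      exact hX l
    have h2 := hinj h1
    rw [Prod.smul_mk, Prod.mk.injEq] at h2
    exact h2
  exact ⟨f₁, f₂, hf, fun l => (heig l).1, fun l => (heig l).2⟩

/-- two joint eigen cusp forms (all `formOp N l`, same eigenvalues) are proportional. -/
theorem eq_smul_of_formOp_eigen (g h : CuspForm (Gamma0 N) 2) (hg : g ≠ 0)
    (lam : Nat.Primes → ℂ) (hge : ∀ l : Nat.Primes, formOp N l g = lam l • g)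
    (hhe : ∀ l : Nat.Primes, formOp N l h = lam l • h) :
    ∃ c : ℂ, h = c • g := by
  classical
  let θ : ℕ → ℂ := fun n => if h : n.Prime then lam ⟨n, h⟩ else 0
  have hθ : ∀ (ℓ : ℕ) (hℓ : ℓ.Prime), θ ℓ = lam ⟨ℓ, hℓ⟩ := fun ℓ hℓ => dif_pos hℓ
  have hT : ∀ f : CuspForm (Gamma0 N) 2, (∀ l : Nat.Primes, formOp N l f = lam l • f) →
      ∀ (ℓ : ℕ) (hℓ : ℓ.Prime) (hℓN : ¬ ℓ ∣ N), CuspForm.heckeTLin 2 hℓ hℓN f = θ ℓ • f := by
    intro f hfe ℓ hℓ hℓN
    have h := hfe ⟨ℓ, hℓ⟩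
    rw [formOp_of_not_dvd N hℓ hℓN] at h
    rw [h, hθ ℓ hℓ]
  have hU : ∀ f : CuspForm (Gamma0 N) 2, (∀ l : Nat.Primes, formOp N l f = lam l • f) →
      ∀ (q : ℕ) (_ : q.Prime) (hqN : q ∣ N), CuspForm.heckeULin 2 hqN f = θ q • f := by
    intro f hfe q hq hqN
    have h := hfe ⟨q, hq⟩
    rw [formOp_of_dvd N hq hqN] at h
    rw [h, hθ q hq]
  refine ⟨qCoeff h 1 * (qCoeff g 1)⁻¹, ?_⟩
  have := eq_smul_of_eigenvector g h hg θ (hT g hge) (hU g hge) (hT h hhe) (hU h hhe)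
  rw [mul_smul]
  exact this

/-- **multiplicity one over `ℂ`**: the joint eigenspace of all `cohGen N ℂ l` in
`Hom_par(Γ₀(N), ℂ)` is spanned by `per(f₀, 0)` and `per(0, f₀)` for any nonzero joint eigen cusp
form `f₀`. -/
theorem mem_span_pair_of_eigen (f₀ : CuspForm (Gamma0 N) 2) (hf₀ : f₀ ≠ 0)
    (lam : Nat.Primes → ℂ) (hf₀e : ∀ l : Nat.Primes, formOp N l f₀ = lam l • f₀)
    (X : Additive (Gamma0 N) →+ ℂ) (hXpar : X ∈ parabolicHoms ℂ (Gamma0 N) ℂ)
    (hX : ∀ l : Nat.Primes, cohGen N ℂ l X = lam l • X) :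
    ∃ c₁ c₂ : ℂ, X = c₁ • periodHomPair N (f₀, 0) + c₂ • periodHomPair N (0, f₀) := by
  obtain ⟨f₁, f₂, hf, h₁, h₂⟩ := exists_eigen_pair X hXpar lam hX
  obtain ⟨c₁, hc₁⟩ := eq_smul_of_formOp_eigen f₀ f₁ hf₀ lam hf₀e h₁
  obtain ⟨c₂, hc₂⟩ := eq_smul_of_formOp_eigen f₀ f₂ hf₀ lam hf₀e h₂
  refine ⟨c₁, c₂, ?_⟩
  rw [← hf, hc₁, hc₂, ← map_smul, ← map_smul, ← map_add]
  congr 1
  rw [Prod.smul_mk, Prod.smul_mk, smul_zero, smul_zero, Prod.mk_add_mk, add_zero, zero_add]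

/-- if no nonzero cusp form has the eigenvalues `lam`, the eigenspace is `0`. -/
theorem eq_zero_of_eigen_of_forall_eq_zero (lam : Nat.Primes → ℂ)
    (hno : ∀ f : CuspForm (Gamma0 N) 2, (∀ l : Nat.Primes, formOp N l f = lam l • f) → f = 0)
    (X : Additive (Gamma0 N) →+ ℂ) (hXpar : X ∈ parabolicHoms ℂ (Gamma0 N) ℂ)
    (hX : ∀ l : Nat.Primes, cohGen N ℂ l X = lam l • X) : X = 0 := by
  obtain ⟨f₁, f₂, hf, h₁, h₂⟩ := exists_eigen_pair X hXpar lam hX
  rw [← hf, hno f₁ h₁, hno f₂ h₂]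
  exact map_zero _

/-- **any three joint eigenclasses are linearly dependent.** -/
theorem exists_rel_of_three (lam : Nat.Primes → ℂ) (X : Fin 3 → (Additive (Gamma0 N) →+ ℂ))
    (hXpar : ∀ i, X i ∈ parabolicHoms ℂ (Gamma0 N) ℂ)
    (hX : ∀ i, ∀ l : Nat.Primes, cohGen N ℂ l (X i) = lam l • X i) :
    ∃ c : Fin 3 → ℂ, c ≠ 0 ∧ ∑ i, c i • X i = 0 := by
  classical
  by_cases hno : ∀ f : CuspForm (Gamma0 N) 2,
      (∀ l : Nat.Primes, formOp N l f = lam l • f) → f = 0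
  · refine ⟨fun _ => 1, fun h => one_ne_zero (congrFun h 0), ?_⟩
    refine Finset.sum_eq_zero fun i _ => ?_
    rw [eq_zero_of_eigen_of_forall_eq_zero lam hno (X i) (hXpar i) (hX i), smul_zero]
  · push Not at hno
    obtain ⟨f₀, hf₀e, hf₀⟩ := hno
    choose a b hab using fun i =>
      mem_span_pair_of_eigen f₀ hf₀ lam hf₀e (X i) (hXpar i) (hX i)
    -- three vectors `(a i, b i)` in `ℂ²` are dependent
    have hdep : ¬ LinearIndependent ℂ (fun i : Fin 3 => ![a i, b i]) := by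
      intro hli
      have h1 := hli.fintype_card_le_finrank
      rw [Fintype.card_fin, Module.finrank_fin_fun] at h1
      omega
    rw [Fintype.linearIndependent_iff] at hdep
    push Not at hdep
    obtain ⟨c, hc, i₀, hi₀⟩ := hdep
    refine ⟨c, fun h => hi₀ (by rw [h]; rfl), ?_⟩
    have ha : ∑ i, c i * a i = 0 := by
      have := congrFun hc 0
      simpa [Finset.sum_apply, Pi.smul_apply, smul_eq_mul] using this
    have hb : ∑ i, c i * b i = 0 := by
      have := congrFun hc 1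
      simpa [Finset.sum_apply, Pi.smul_apply, smul_eq_mul] using this
    have h2 : ∑ i, c i • X i = (∑ i, c i * a i) • periodHomPair N (f₀, 0) +
        (∑ i, c i * b i) • periodHomPair N (0, f₀) := by
      rw [Finset.sum_smul, Finset.sum_smul, ← Finset.sum_add_distrib]
      refine Finset.sum_congr rfl fun i _ => ?_
      rw [hab i, smul_add, smul_smul, smul_smul]
    rw [h2, ha, hb, zero_smul, zero_smul, add_zero]

end Fermat.Agent.GE9.Mult1
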