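/-
GATE-E / GE9-ETA-MULT1 (helper63) — file (b): **integer-valued functions that are `ℤ`-independent
stay independent over every field of characteristic `0`** (Mathlib only).

`Φ : Fin k → X → ℤ`.  If `∑ c_i Φ_i = 0` with `c : Fin k → K` not all zero (`K` a field,
`CharZero K`), then there is an INTEGER relation `∑ n_i Φ_i = 0`, `n ≠ 0`.
Proof: the `ℚ`-span `W` of the columns `(Φ_i x)_i ∈ ℚ^k` is either `⊤` — then the `ℚ`-linear
functional `v ↦ ∑ c_i v_i` vanishes on `ℚ^k`, so `c = 0` — or proper — then a nonzero rational
functional vanishes on all columns; clear denominators.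
-/
import Mathlib

set_option autoImplicit false

namespace Fermat.Agent.GE9.Mult1

variable {X : Type*} {K : Type*} [Field K] [CharZero K] {k : ℕ}

/-- a relation over a field of characteristic `0` between integer-valued functions forces an
integer relation. -/
theorem exists_int_rel_of_field_rel (Φ : Fin k → X → ℤ) (c : Fin k → K) (hc : c ≠ 0)
    (hrel : ∀ x, ∑ i, c i * (Φ i x : K) = 0) :
    ∃ n : Fin k → ℤ, n ≠ 0 ∧ ∀ x, ∑ i, n i * Φ i x = 0 := by
  classical
  let col : X → (Fin k → ℚ) := fun x i => (Φ i x : ℚ)
  set W : Submodule ℚ (Fin k → ℚ) := Submodule.span ℚ (Set.range col) with hW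
  by_cases htop : W = ⊤
  · exfalso
    -- the functional `v ↦ ∑ c_i v_i`
    let ψ : (Fin k → ℚ) →ₗ[ℚ] K :=
      { toFun := fun v => ∑ i, c i * (v i : K)
        map_add' := fun v w => by
          simp only [Pi.add_apply, Rat.cast_add, mul_add, Finset.sum_add_distrib]
        map_smul' := fun r v => by
          simp only [Pi.smul_apply, smul_eq_mul, Rat.cast_mul, RingHom.id_apply, Finset.mul_sum,
            Rat.smul_def]
          refine Finset.sum_congr rfl fun i _ => ?_
          ring }
    have hψcol : ∀ x, ψ (col x) = 0 := by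
      intro x
      show ∑ i, c i * (((Φ i x : ℚ)) : K) = 0
      simp only [Rat.cast_intCast]
      exact hrel x
    have hle : W ≤ LinearMap.ker ψ := by
      rw [hW, Submodule.span_le]
      rintro _ ⟨x, rfl⟩
      exact hψcol x
    rw [htop] at hle
    apply hc
    funext i
    have h1 : ψ (Pi.single i 1) = 0 := hle Submodule.mem_top
    have h2 : ψ (Pi.single i 1) = c i := by
      show ∑ j, c j * (((Pi.single i (1 : ℚ) : Fin k → ℚ) j : ℚ) : K) = c i
      rw [Finset.sum_eq_single i]
      · rw [Pi.single_eq_same, Rat.cast_one, mul_one]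
      · intro j _ hji
        rw [Pi.single_eq_of_ne hji, Rat.cast_zero, mul_zero]
      · intro hi
        exact absurd (Finset.mem_univ i) hi
    rw [← h2, h1]
    rfl
  · have hlt : W < ⊤ := lt_top_iff_ne_top.mpr htop
    obtain ⟨f, hf0, hfW⟩ := Submodule.exists_le_ker_of_lt_top W hlt
    -- coefficients of `f`
    let r : Fin k → ℚ := fun i => f (Pi.single i 1)
    have hfr : ∀ v : Fin k → ℚ, f v = ∑ i, r i * v i := by
      intro v
      conv_lhs => rw [← Finset.univ_sum_single v]
      rw [map_sum]
      refine Finset.sum_congr rfl fun i _ => ?_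
      have : (Pi.single i (v i) : Fin k → ℚ) = v i • Pi.single i 1 := by
        rw [← Pi.single_smul, smul_eq_mul, mul_one]
      rw [this, map_smul, smul_eq_mul, mul_comm]
    have hr0 : r ≠ 0 := by
      intro h0
      apply hf0
      apply LinearMap.ext
      intro v
      rw [hfr v, h0]
      simp
    obtain ⟨b, hb⟩ := IsLocalization.exist_integer_multiples (nonZeroDivisors ℤ)
      (Finset.univ : Finset (Fin k)) r
    choose n hn using fun i => hb i (Finset.mem_univ i)
    have hb0 : ((b : ℤ) : ℚ) ≠ 0 := by
      have := nonZeroDivisors.coe_ne_zero b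
      exact_mod_cast this
    have hn' : ∀ i, (n i : ℚ) = (b : ℤ) * r i := by
      intro i
      have := hn i
      rw [eq_intCast, zsmul_eq_mul] at this
      exact this
    refine ⟨n, ?_, fun x => ?_⟩
    · intro h0
      apply hr0
      funext i
      have h1 := hn' i
      rw [h0, Pi.zero_apply, Int.cast_zero] at h1
      exact (mul_eq_zero.mp h1.symm).resolve_left hb0
    · have h1 : f (col x) = 0 := hfW (Submodule.subset_span ⟨x, rfl⟩)
      rw [hfr] at h1
      have h2 : ((∑ i, n i * Φ i x : ℤ) : ℚ) = 0 := by
        rw [Int.cast_sum]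
        have : ∀ i, ((n i * Φ i x : ℤ) : ℚ) = (b : ℤ) * (r i * col x i) := by
          intro i
          rw [Int.cast_mul, hn' i]
          show _ = ((b : ℤ) : ℚ) * (r i * ((Φ i x : ℤ) : ℚ))
          ring
        simp only [this]
        rw [← Finset.mul_sum, h1, mul_zero]
      exact_mod_cast h2

/-- **`ℤ`-independent integer-valued functions are independent over any field of
characteristic `0`.** -/
theorem linearIndependent_intCast (Φ : Fin k → X → ℤ) (h : LinearIndependent ℤ Φ) :
    LinearIndependent K (fun i => (fun x => (Φ i x : K) : X → K)) := by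
  rw [Fintype.linearIndependent_iff]
  intro c hc
  by_contra hne
  push Not at hne
  have hc0 : c ≠ 0 := by
    intro h0
    obtain ⟨i, hi⟩ := hne
    exact hi (by rw [h0]; rfl)
  have hrel : ∀ x, ∑ i, c i * (Φ i x : K) = 0 := by
    intro x
    have := congrFun hc x
    simpa [Finset.sum_apply, Pi.smul_apply, smul_eq_mul] using this
  obtain ⟨n, hn0, hn⟩ := exists_int_rel_of_field_rel Φ c hc0 hrel
  apply hn0
  rw [Fintype.linearIndependent_iff] at h
  funext i
  refine h n ?_ i
  funext x
  have := hn x
  simpa [Finset.sum_apply, Pi.smul_apply, smul_eq_mul] using this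

end Fermat.Agent.GE9.Mult1
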