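/-
GATE-E / GE9-ETA-MULT1 (helper63) — file (c): **the eigenlattice of the FULL Hecke algebra for an
INTEGER eigensystem has rank `≤ 2`.**

`Lam N = Hom_par(Γ₀(N), ℤ)`, `latT N l` (`T_l` for `l ∤ N`, `U_l` for `l ∣ N`) as in `GJ/J2/Lattice`.
For `lam : Nat.Primes → ℤ`:
  `eigenLat N lam := {Φ ∈ Lam N | latT N l Φ = lam l • Φ ∀ l}`.
* `exists_int_rel_of_three` : any three elements of `eigenLat N lam` satisfy a nontrivial integer
  relation (complexify with `latC`, use `EigenC.exists_rel_of_three`, come back with `IntIndep`);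
* `finrank_eigenLat_le_two` : `Module.finrank ℤ (eigenLat N lam) ≤ 2`.
In the S59 engine all eigenvalues are integers (`a_ℓ(W) ∈ ℤ`, `U_q ↦ 0` for `q ∈ Σ`, `U_r ↦ ±1` at
the multiplicative primes), so this is the rank bound `MULT1` for `L_Σ[𝔭_Σ]`.
-/
import Mathlib
import Fermat.Agent.GE9.Mult1.EigenC
import Fermat.Agent.GE9.Mult1.IntIndep

set_option autoImplicit false

open scoped MatrixGroups
open CongruenceSubgroup ModularCurve ModularCurve.Period CuspForm ModularFormClass

namespace Fermat.Agent.GE9.Mult1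

open Fermat.Agent.S16_helper49 Fermat.Agent.GJ.J2.Lat

variable (N : ℕ) [NeZero N]

/-- the joint eigenlattice of all `latT N l` for the integer eigenvalues `lam`. -/
def eigenLat (lam : Nat.Primes → ℤ) : Submodule ℤ (Lam N) where
  carrier := {Φ | ∀ l : Nat.Primes, latT N l Φ = lam l • Φ}
  zero_mem' := fun l => by rw [map_zero, smul_zero]
  add_mem' := fun {a b} ha hb l => by rw [map_add, ha l, hb l, smul_add]
  smul_mem' := fun c a ha l => by rw [map_smul, ha l, smul_comm]

variable {N}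

theorem mem_eigenLat {lam : Nat.Primes → ℤ} {Φ : Lam N} :
    Φ ∈ eigenLat N lam ↔ ∀ l : Nat.Primes, latT N l Φ = lam l • Φ := Iff.rfl

/-- the complexification of an element of the eigenlattice is a joint eigenclass. -/
theorem cohGen_latC_of_mem {lam : Nat.Primes → ℤ} {Φ : Lam N} (hΦ : Φ ∈ eigenLat N lam)
    (l : Nat.Primes) : cohGen N ℂ l (latC N Φ) = ((lam l : ℤ) : ℂ) • latC N Φ := by
  rw [← latC_latT, hΦ l, map_zsmul, Int.cast_smul_eq_zsmul]

/-- **any three elements of the eigenlattice satisfy a nontrivial integer relation.** -/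
theorem exists_int_rel_of_three (lam : Nat.Primes → ℤ) (Φ : Fin 3 → Lam N)
    (hΦ : ∀ i, Φ i ∈ eigenLat N lam) :
    ∃ n : Fin 3 → ℤ, n ≠ 0 ∧ ∑ i, n i • Φ i = 0 := by
  obtain ⟨c, hc0, hc⟩ := exists_rel_of_three (N := N) (fun l => ((lam l : ℤ) : ℂ))
    (fun i => latC N (Φ i)) (fun i => latC_isParabolicHom N (Φ i))
    (fun i l => cohGen_latC_of_mem (hΦ i) l)
  have hrel : ∀ γ : Additive (Gamma0 N),
      ∑ i, c i * ((((Φ i : Lam N) : Additive (Gamma0 N) →+ ℤ) γ : ℤ) : ℂ) = 0 := by
    intro γ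
    have h1 := DFunLike.congr_fun hc γ
    rw [AddMonoidHom.finsetSum_apply, AddMonoidHom.zero_apply] at h1
    rw [← h1]
    refine Finset.sum_congr rfl fun i _ => ?_
    rw [AddMonoidHom.smul_apply, latC_apply, smul_eq_mul]
  obtain ⟨n, hn0, hn⟩ := exists_int_rel_of_field_rel
    (fun i γ => ((Φ i : Lam N) : Additive (Gamma0 N) →+ ℤ) γ) c hc0 hrel
  refine ⟨n, hn0, ?_⟩
  apply Subtype.ext
  refine AddMonoidHom.ext fun γ => ?_
  have h2 := hn γ
  rw [Submodule.coe_sum, AddMonoidHom.finsetSum_apply]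
  simp only [Submodule.coe_smul, AddMonoidHom.smul_apply, smul_eq_mul, Submodule.coe_zero,
    AddMonoidHom.zero_apply]
  exact h2

/-- **MULT1 over `ℤ`**: the eigenlattice of the full Hecke algebra has rank at most `2`. -/
theorem finrank_eigenLat_le_two (lam : Nat.Primes → ℤ) :
    Module.finrank ℤ (eigenLat N lam) ≤ 2 := by
  by_contra hcon
  have h3 : 3 ≤ Module.finrank ℤ (eigenLat N lam) := by omega
  obtain ⟨f, hf⟩ := exists_linearIndependent_of_le_finrank h3
  obtain ⟨n, hn0, hn⟩ := exists_int_rel_of_three lam (fun i => (f i : Lam N)) fun i => (f i).2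
  rw [Fintype.linearIndependent_iff] at hf
  apply hn0
  funext i
  refine hf n ?_ i
  apply Subtype.ext
  rw [Submodule.coe_sum, Submodule.coe_zero, ← hn]
  rfl

end Fermat.Agent.GE9.Mult1
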