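/-
GATE-E / GE9-ETA-MULT1 (helper63) — file (e): **MULT1 in consumer form.**

`O` a domain of characteristic `0`.  `M` an `O`-module carrying a `ℤ`-structure from
`Lam N = Hom_par(Γ₀(N), ℤ)`: a `ℤ`-basis `β` of `Lam N`, an `O`-basis `β'` of `M`, `j : Lam N →+ M`
with `j (β i) = β' i`, and operators `T' l` on `M` with `T' l ∘ j = j ∘ latT N l` for ALL primes `l`.
For an INTEGER eigensystem `lam`:

* `finrank_le_two_of_eigen` : every `O`-submodule `P' ≤ M` on which `T' l = lam l` for all `l` has
  `finrank O P' ≤ 2`   (= the binder `hrank` of `Eta.Sat.next_stage_three` with `d = 2`, as soon as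
  `L'[𝔭'] ↪ M` with these properties);
* `finrank_eigenTensor_le_two` : the instance `M = O ⊗[ℤ] Lam N`, `T' l = (latT N l).baseChange O`.
-/
import Mathlib
import Fermat.Agent.GE9.Mult1.EigenLat
import Fermat.Agent.GE9.Mult1.BaseChange

set_option autoImplicit false

open scoped MatrixGroups TensorProduct
open CongruenceSubgroup ModularCurve ModularCurve.Period CuspForm ModularFormClass

namespace Fermat.Agent.GE9.Mult1

open Fermat.Agent.S16_helper49 Fermat.Agent.GJ.J2.Lat

variable {N : ℕ} [NeZero N] {O : Type*} [CommRing O] [IsDomain O] [CharZero O]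

/-- the eigenlattice as a joint kernel. -/
theorem iInf_ker_eq_eigenLat (lam : Nat.Primes → ℤ) :
    (⨅ l : Nat.Primes, LinearMap.ker (latT N l - lam l • (1 : Module.End ℤ (Lam N)))) =
      eigenLat N lam := by
  ext Φ
  rw [Submodule.mem_iInf, mem_eigenLat]
  refine forall_congr' fun l => ?_
  rw [LinearMap.mem_ker, LinearMap.sub_apply, LinearMap.smul_apply, Module.End.one_apply,
    sub_eq_zero]

/-- **MULT1, consumer form.** -/
theorem finrank_le_two_of_eigen {M : Type*} [AddCommGroup M] [Module O M] {ι : Type*} [Fintype ι]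
    (β : Module.Basis ι ℤ (Lam N)) (β' : Module.Basis ι O M) (j : Lam N →+ M)
    (hj : ∀ i, j (β i) = β' i) (T' : Nat.Primes → M →ₗ[O] M)
    (hT' : ∀ (l : Nat.Primes) (Φ : Lam N), T' l (j Φ) = j (latT N l Φ))
    (lam : Nat.Primes → ℤ) (P' : Submodule O M)
    (hP' : ∀ y ∈ P', ∀ l : Nat.Primes, T' l y = ((lam l : ℤ) : O) • y) :
    Module.finrank O P' ≤ 2 := by
  have h1 := finrank_le_of_le_iInf_ker (O := O) β β' j hj
    (fun l : Nat.Primes => latT N l - lam l • (1 : Module.End ℤ (Lam N)))
    (fun l : Nat.Primes => T' l - ((lam l : ℤ) : O) • (1 : Module.End O M))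
    (fun l Φ => by
      rw [LinearMap.sub_apply, LinearMap.smul_apply, Module.End.one_apply, hT',
        LinearMap.sub_apply, LinearMap.smul_apply, Module.End.one_apply, map_sub, map_zsmul,
        Int.cast_smul_eq_zsmul])
    P' (fun y hy => by
      rw [Submodule.mem_iInf]
      intro l
      rw [LinearMap.mem_ker, LinearMap.sub_apply, LinearMap.smul_apply, Module.End.one_apply,
        hP' y hy l, sub_self])
  rw [iInf_ker_eq_eigenLat] at h1
  exact h1.trans (finrank_eigenLat_le_two lam)

variable (N O)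

/-- the joint eigen-submodule of `O ⊗[ℤ] Lam N` for the base-changed Hecke operators. -/
noncomputable def eigenTensor (lam : Nat.Primes → ℤ) : Submodule O (O ⊗[ℤ] Lam N) :=
  ⨅ l : Nat.Primes, LinearMap.ker
    ((latT N l).baseChange O - ((lam l : ℤ) : O) • (1 : Module.End O (O ⊗[ℤ] Lam N)))

variable {N O}

omit [IsDomain O] [CharZero O] in
theorem mem_eigenTensor {lam : Nat.Primes → ℤ} {y : O ⊗[ℤ] Lam N} :
    y ∈ eigenTensor N O lam ↔
      ∀ l : Nat.Primes, (latT N l).baseChange O y = ((lam l : ℤ) : O) • y := by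
  rw [eigenTensor, Submodule.mem_iInf]
  refine forall_congr' fun l => ?_
  rw [LinearMap.mem_ker, LinearMap.sub_apply, LinearMap.smul_apply, Module.End.one_apply,
    sub_eq_zero]

/-- **MULT1 for `O ⊗[ℤ] Lam N`.** -/
theorem finrank_eigenTensor_le_two (lam : Nat.Primes → ℤ) :
    Module.finrank O (eigenTensor N O lam) ≤ 2 := by
  have hfree : Module.Free ℤ (Lam N) := Fermat.Agent.GJ.J2.ZStruct.free_parabolicHoms_int N
  have hfin : Module.Finite ℤ (Lam N) := Fermat.Agent.GJ.J2.ZStruct.finite_parabolicHoms_int N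
  let β := Module.Free.chooseBasis ℤ (Lam N)
  refine finrank_le_two_of_eigen β (Algebra.TensorProduct.basis O β)
    ((TensorProduct.mk ℤ O (Lam N) 1).toAddMonoidHom)
    (fun i => by
      rw [Algebra.TensorProduct.basis_apply]
      rfl)
    (fun l => (latT N l).baseChange O)
    (fun l Φ => by
      show (latT N l).baseChange O ((1 : O) ⊗ₜ[ℤ] Φ) = (1 : O) ⊗ₜ[ℤ] (latT N l Φ)
      rw [LinearMap.baseChange_tmul])
    lam (eigenTensor N O lam) (fun y hy l => mem_eigenTensor.mp hy l)

end Fermat.Agent.GE9.Mult1
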