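/-
GATE-E / GE9-OLDQ, node O7 (helper81, for helper63's node table): **field base change of joint
kernels / joint eigenspaces of matrices** (Mathlib only).

* `mem_span_of_forall_mulVec` : `A` a field, `B` a commutative `A`-algebra, `m s : Matrix ι ι A`;
  a vector `y : ι → B` in the joint kernel of the base-changed matrices is a `B`-combination of the
  images of vectors of the joint kernel over `A` ("finite `A`-span of the coordinates" trick);
* `linearIndependent_map_ringHom` : finitely many `F`-independent vectors of `F^ι` stay independent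
  in `L^ι` after applying a ring homomorphism `σ : F →+* L` of fields coordinatewise;
* `isIntegral_of_mulVec_eq_smul` : an eigenvalue of an INTEGER matrix on a nonzero vector with
  coordinates in a field is integral over `ℤ` (Cayley–Hamilton);
* `eigenVecs m lam`, `mem_span_eigenVecs`, `card_le_finrank_eigenVecs` : the same base change for
  joint EIGENspaces, and the resulting bound on the number of independent eigenvectors over an
  extension field;
* `exists_complex_eigen` : `k` independent joint eigenvectors of integer matrices with coordinates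
  and eigenvalues in a domain `O` of characteristic `0` produce `k` independent joint eigenvectors
  with coordinates in `ℂ` (`O ⊆ Frac O ⊇ algebraic closure of ℚ in Frac O ↪ ℂ`).
-/
import Mathlib

set_option autoImplicit false

namespace Fermat.Agent.GE9.Mult1.FieldBC

open Submodule Matrix

section Span

variable {A : Type*} [Field A] {B : Type*} [CommRing B] [Algebra A B]
  {ι : Type*} [Fintype ι]

/-- **flat base change of a joint kernel of matrices over a field.** -/
theorem mem_span_of_forall_mulVec {S : Type*} (m : S → Matrix ι ι A) (y : ι → B)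
    (hy : ∀ s, ((m s).map (algebraMap A B)).mulVec y = 0) :
    y ∈ span B ((fun x : ι → A => (fun i => algebraMap A B (x i))) ''
      {x : ι → A | ∀ s, (m s).mulVec x = 0}) := by
  classical
  -- the finite-dimensional `A`-space spanned by the coordinates
  set V : Submodule A B := span A (Set.range y) with hV
  have hfin : FiniteDimensional A V := FiniteDimensional.span_of_finite A (Set.finite_range y)
  let f := Module.finBasis A V
  have hyV : ∀ i, y i ∈ V := fun i => subset_span ⟨i, rfl⟩
  let n : Fin (Module.finrank A V) → ι → A := fun μ i => f.repr ⟨y i, hyV i⟩ μ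
  have hyn : ∀ i, y i = ∑ μ, algebraMap A B (n μ i) * ((f μ : V) : B) := by
    intro i
    have h1 := f.sum_repr ⟨y i, hyV i⟩
    have h2 := congrArg (fun w : V => (w : B)) h1
    simp only [Submodule.coe_sum, Submodule.coe_smul] at h2
    rw [← h2]
    refine Finset.sum_congr rfl fun μ _ => ?_
    rw [Algebra.smul_def]
  -- each piece lies in the joint kernel
  have hx : ∀ μ s, (m s).mulVec (n μ) = 0 := by
    intro μ s
    funext k
    rw [Pi.zero_apply]
    have h0 := congrFun (hy s) k
    rw [Pi.zero_apply, Matrix.mulVec, dotProduct] at h0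
    simp only [Matrix.map_apply] at h0
    have h1 : ∑ ν, (∑ i, m s k i * n ν i) • (f ν) = 0 := by
      apply Subtype.ext
      rw [Submodule.coe_sum, Submodule.coe_zero, ← h0]
      simp only [Submodule.coe_smul, Algebra.smul_def, map_sum, map_mul, Finset.sum_mul]
      rw [Finset.sum_comm]
      refine Finset.sum_congr rfl fun i _ => ?_
      rw [hyn i, Finset.mul_sum]
      refine Finset.sum_congr rfl fun ν _ => ?_
      ring
    have h2 := (Fintype.linearIndependent_iff.mp f.linearIndependent) _ h1 μ
    simpa [Matrix.mulVec, dotProduct] using h2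
  have hy_eq : y = ∑ μ, ((f μ : V) : B) • (fun i => algebraMap A B (n μ i)) := by
    funext i
    rw [Finset.sum_apply, hyn i]
    refine Finset.sum_congr rfl fun μ _ => ?_
    rw [Pi.smul_apply, smul_eq_mul, mul_comm]
  rw [hy_eq]
  exact Submodule.sum_mem _ fun μ _ =>
    Submodule.smul_mem _ _ (subset_span ⟨n μ, hx μ, rfl⟩)

end Span

section Indep

variable {F : Type*} [Field F] {L : Type*} [Field L] {ι : Type*} [Fintype ι]

/-- **independence is preserved by a ring homomorphism of fields applied coordinatewise.** -/
theorem linearIndependent_map_ringHom (σ : F →+* L) {k : ℕ} (x : Fin k → ι → F)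
    (hx : LinearIndependent F x) :
    LinearIndependent L (fun a : Fin k => (fun i => σ (x a i) : ι → L)) := by
  classical
  -- a left inverse of `c ↦ ∑ c_a x_a`
  have hinj : LinearMap.ker (Fintype.linearCombination F x) = ⊥ :=
    LinearMap.ker_eq_bot.mpr hx.fintypeLinearCombination_injective
  obtain ⟨G, hG⟩ := LinearMap.exists_leftInverse_of_injective (Fintype.linearCombination F x) hinj
  let w : Fin k → ι → F := fun a i => G (Pi.single i 1) a
  have hGv : ∀ (v : ι → F) (a : Fin k), G v a = ∑ i, v i * w a i := by
    intro v a
    conv_lhs => rw [← Finset.univ_sum_single v]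
    rw [map_sum, Finset.sum_apply]
    refine Finset.sum_congr rfl fun i _ => ?_
    have : (Pi.single i (v i) : ι → F) = v i • Pi.single i 1 := by
      rw [← Pi.single_smul, smul_eq_mul, mul_one]
    rw [this, map_smul, Pi.smul_apply, smul_eq_mul]
  have hdual : ∀ a b : Fin k, ∑ i, x b i * w a i = if a = b then 1 else 0 := by
    intro a b
    rw [← hGv]
    have h1 : Fintype.linearCombination F x (Pi.single b 1) = x b := by
      rw [Fintype.linearCombination_apply_single, one_smul]
    have h2 := LinearMap.congr_fun hG (Pi.single b (1 : F))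
    rw [LinearMap.comp_apply, h1, LinearMap.id_apply] at h2
    rw [h2, Pi.single_apply]
  rw [Fintype.linearIndependent_iff]
  intro c hc a
  have hci : ∀ i, ∑ b, c b * σ (x b i) = 0 := by
    intro i
    have := congrFun hc i
    simpa [Finset.sum_apply, Pi.smul_apply, smul_eq_mul] using this
  have h3 : ∑ i, (∑ b, c b * σ (x b i)) * σ (w a i) = 0 := by
    refine Finset.sum_eq_zero fun i _ => ?_
    rw [hci i, zero_mul]
  have h4 : ∑ i, (∑ b, c b * σ (x b i)) * σ (w a i) = c a := by
    simp only [Finset.sum_mul]
    rw [Finset.sum_comm]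
    have h6 : ∀ b, ∑ i, c b * σ (x b i) * σ (w a i) = if a = b then c b else 0 := by
      intro b
      have h5 := congrArg σ (hdual a b)
      rw [map_sum] at h5
      simp only [map_mul] at h5
      simp only [mul_assoc]
      rw [← Finset.mul_sum, h5]
      by_cases hab : a = b
      · rw [if_pos hab, if_pos hab, map_one, mul_one]
      · rw [if_neg hab, if_neg hab, map_zero, mul_zero]
    rw [Finset.sum_congr rfl fun b _ => h6 b]
    rw [Finset.sum_ite_eq]
    simp
  rw [← h4, h3]

end Indep

section Integral

variable {K : Type*} [Field K] {ι : Type*} [Fintype ι] [DecidableEq ι]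

/-- **an eigenvalue of an integer matrix is an algebraic integer** (Cayley–Hamilton). -/
theorem isIntegral_of_mulVec_eq_smul (A : Matrix ι ι ℤ) (c : ι → K) (hc : c ≠ 0) (μ : K)
    (h : (A.map (Int.cast : ℤ → K)).mulVec c = μ • c) : IsIntegral ℤ μ := by
  set AK : Matrix ι ι K := A.map (Int.castRingHom K) with hAK
  have hAK' : A.map (Int.cast : ℤ → K) = AK := rfl
  rw [hAK'] at h
  have heig : Module.End.HasEigenvector (Matrix.toLinAlgEquiv' AK) μ c := by
    refine ⟨?_, hc⟩
    rw [Module.End.mem_eigenspace_iff]
    exact h
  have h1 := Module.End.aeval_apply_of_hasEigenvector (p := AK.charpoly) heig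
  have h2 : Polynomial.aeval (Matrix.toLinAlgEquiv' AK) AK.charpoly = 0 := by
    rw [Polynomial.aeval_algEquiv, AlgHom.comp_apply, Matrix.aeval_self_charpoly]
    simp
  rw [h2, LinearMap.zero_apply] at h1
  have h3 : Polynomial.eval μ AK.charpoly = 0 := by
    rcases smul_eq_zero.mp h1.symm with h | h
    · exact h
    · exact absurd h hc
  rw [hAK, Matrix.charpoly_map, Polynomial.eval_map] at h3
  exact ⟨A.charpoly, Matrix.charpoly_monic A, h3⟩

end Integral

section Eigen

variable {ι : Type*} [Fintype ι]

/-- the joint eigenvectors of a family of matrices, for prescribed eigenvalues. -/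
def eigenVecs {R : Type*} [CommSemiring R] {S : Type*} (m : S → Matrix ι ι R) (lamR : S → R) :
    Submodule R (ι → R) where
  carrier := {x | ∀ s, (m s).mulVec x = lamR s • x}
  zero_mem' := fun s => by rw [Matrix.mulVec_zero, smul_zero]
  add_mem' := fun {x y} hx hy s => by rw [Matrix.mulVec_add, hx s, hy s, smul_add]
  smul_mem' := fun r x hx s => by rw [Matrix.mulVec_smul, hx s, smul_comm]

theorem mem_eigenVecs {R : Type*} [CommSemiring R] {S : Type*} {m : S → Matrix ι ι R}
    {lamR : S → R} {x : ι → R} :
    x ∈ eigenVecs m lamR ↔ ∀ s, (m s).mulVec x = lamR s • x := Iff.rfl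

variable {A : Type*} [Field A] {B : Type*}

/-- **flat base change of a joint eigenspace of matrices over a field.** -/
theorem mem_span_eigenVecs [CommRing B] [Algebra A B] {S : Type*} (m : S → Matrix ι ι A)
    (lamA : S → A) (y : ι → B)
    (hy : ∀ s, ((m s).map (algebraMap A B)).mulVec y = algebraMap A B (lamA s) • y) :
    y ∈ span B ((fun x : ι → A => (fun i => algebraMap A B (x i))) ''
      (eigenVecs m lamA : Set (ι → A))) := by
  classical
  have h1 := mem_span_of_forall_mulVec (fun s => m s - lamA s • (1 : Matrix ι ι A)) y (by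
    intro s
    have hmap : (m s - lamA s • (1 : Matrix ι ι A)).map (algebraMap A B)
        = (m s).map (algebraMap A B) - algebraMap A B (lamA s) • (1 : Matrix ι ι B) := by
      rw [Matrix.map_sub _ (map_sub _), Matrix.map_smul' _ _ _ (map_mul _),
        Matrix.map_one _ (map_zero _) (map_one _)]
    rw [hmap, Matrix.sub_mulVec, Matrix.smul_mulVec, Matrix.one_mulVec, hy s, sub_self])
  have hset : {x : ι → A | ∀ s, (m s - lamA s • (1 : Matrix ι ι A)).mulVec x = 0}
      = (eigenVecs m lamA : Set (ι → A)) := by
    ext x
    simp only [Set.mem_ofPred_eq, SetLike.mem_coe, mem_eigenVecs]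
    refine forall_congr' fun s => ?_
    rw [Matrix.sub_mulVec, Matrix.smul_mulVec, Matrix.one_mulVec, sub_eq_zero]
  rw [hset] at h1
  exact h1

/-- **independent eigenvectors over an extension field are bounded in number by the dimension of
the eigenspace over the base field.** -/
theorem card_le_finrank_eigenVecs [Field B] [Algebra A B] {S : Type*} (m : S → Matrix ι ι A)
    (lamA : S → A) {k : ℕ} (y : Fin k → ι → B) (hy : LinearIndependent B y)
    (heig : ∀ a s, ((m s).map (algebraMap A B)).mulVec (y a) = algebraMap A B (lamA s) • y a) :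
    k ≤ Module.finrank A (eigenVecs m lamA) := by
  classical
  set E : Submodule A (ι → A) := eigenVecs m lamA with hE
  let e := Module.finBasis A E
  let g : Fin (Module.finrank A E) → ι → B := fun b i => algebraMap A B ((e b : ι → A) i)
  set W : Submodule B (ι → B) := span B (Set.range g) with hW
  have hle : span B ((fun x : ι → A => (fun i => algebraMap A B (x i))) '' (E : Set (ι → A)))
      ≤ W := by
    rw [span_le]
    rintro _ ⟨x, hx, rfl⟩
    have h2 := e.sum_repr ⟨x, hx⟩
    have h3 : x = ∑ b, (e.repr ⟨x, hx⟩ b) • (e b : ι → A) := by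
      have := congrArg (fun w : E => (w : ι → A)) h2
      simp only [Submodule.coe_sum, Submodule.coe_smul] at this
      exact this.symm
    have h4 : (fun i => algebraMap A B (x i)) = ∑ b, algebraMap A B (e.repr ⟨x, hx⟩ b) • g b := by
      funext i
      conv_lhs => rw [h3]
      simp only [Finset.sum_apply, Pi.smul_apply, smul_eq_mul, map_sum, map_mul, g]
    show (fun i => algebraMap A B (x i)) ∈ W
    rw [h4]
    exact Submodule.sum_mem _ fun b _ => Submodule.smul_mem _ _ (subset_span ⟨b, rfl⟩)
  have hyW : ∀ a, y a ∈ W := fun a => hle (mem_span_eigenVecs m lamA (y a) (heig a))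
  have hyli : LinearIndependent B (fun a => (⟨y a, hyW a⟩ : W)) :=
    LinearIndependent.of_comp W.subtype hy
  have h5 := hyli.fintype_card_le_finrank
  rw [Fintype.card_fin] at h5
  have h6 : Module.finrank B W ≤ Fintype.card (Fin (Module.finrank A E)) :=
    finrank_range_le_card g
  rw [Fintype.card_fin] at h6
  exact h5.trans h6

end Eigen

section Transfer

variable {O : Type*} [CommRing O] [IsDomain O] [CharZero O] {ι : Type*} [Fintype ι] {S : Type*}

/-- transfer to `ℂ` of joint eigenvectors of integer matrices with coordinates in a field of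
characteristic `0`. -/
theorem exists_complex_eigen_of_field {K : Type*} [Field K] [CharZero K]
    (Amat : S → Matrix ι ι ℤ) (lamK : S → K) {k : ℕ} (cK : Fin k → ι → K)
    (hcK : LinearIndependent K cK)
    (heigK : ∀ a s, ((Amat s).map (Int.cast : ℤ → K)).mulVec (cK a) = lamK s • cK a) :
    ∃ (μ : S → ℂ) (z : Fin k → ι → ℂ), LinearIndependent ℂ z ∧
      ∀ a s, ((Amat s).map (Int.cast : ℤ → ℂ)).mulVec (z a) = μ s • z a := by
  classical
  rcases Nat.eq_zero_or_pos k with hk | hk
  · subst hk
    exact ⟨fun _ => 0, fun a => a.elim0, linearIndependent_empty_type, fun a => a.elim0⟩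
  -- step 2: the eigenvalues are algebraic over `ℚ`
  have hint : ∀ s, IsAlgebraic ℚ (lamK s) := by
    intro s
    have h0 : cK ⟨0, hk⟩ ≠ 0 := hcK.ne_zero _
    have h1 := isIntegral_of_mulVec_eq_smul (Amat s) (cK ⟨0, hk⟩) h0 _ (heigK ⟨0, hk⟩ s)
    exact (h1.tower_top (A := ℚ)).isAlgebraic
  let F := algebraicClosure ℚ K
  have hFalg : Algebra.IsAlgebraic ℚ F := algebraicClosure.isAlgebraic ℚ K
  let lamF : S → F := fun s => ⟨lamK s, mem_algebraicClosure_iff.mpr (hint s)⟩
  -- step 3: descend to the algebraic closure of `ℚ` in `K`
  have hk3 : k ≤ Module.finrank F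
      (eigenVecs (fun s => (Amat s).map (Int.cast : ℤ → F)) lamF) := by
    refine card_le_finrank_eigenVecs _ lamF cK hcK ?_
    intro a s
    have hm : ((Amat s).map (Int.cast : ℤ → F)).map (algebraMap F K)
        = (Amat s).map (Int.cast : ℤ → K) := by
      ext i j
      simp
    rw [hm]
    exact heigK a s
  obtain ⟨x, hx⟩ := exists_linearIndependent_of_le_finrank hk3
  -- step 4: embed into `ℂ`
  let σ : F →ₐ[ℚ] ℂ := IsAlgClosed.lift
  refine ⟨fun s => σ (lamF s), fun a i => σ ((x a : ι → F) i), ?_, ?_⟩
  · exact linearIndependent_map_ringHom σ.toRingHom (fun a => (x a : ι → F))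
      (hx.map' (Submodule.subtype _) (Submodule.ker_subtype _))
  · intro a s
    funext κ
    have h1 := congrFun ((x a).2 s) κ
    have h2 := congrArg σ h1
    simp only [Matrix.mulVec, dotProduct, Matrix.map_apply, Pi.smul_apply, smul_eq_mul, map_sum,
      map_mul, map_intCast] at h2 ⊢
    exact h2

omit [IsDomain O] [CharZero O] in
/-- transfer to a fraction field. -/
theorem exists_fraction_eigen (K : Type*) [Field K] [Algebra O K] [IsFractionRing O K]
    (Amat : S → Matrix ι ι ℤ) (lam : S → O) {k : ℕ} (c : Fin k → ι → O)
    (hc : LinearIndependent O c)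
    (heig : ∀ a s, ((Amat s).map (Int.cast : ℤ → O)).mulVec (c a) = lam s • c a) :
    LinearIndependent K (fun (a : Fin k) (i : ι) => algebraMap O K (c a i)) ∧
      ∀ a s, ((Amat s).map (Int.cast : ℤ → K)).mulVec (fun i => algebraMap O K (c a i))
        = algebraMap O K (lam s) • (fun i => algebraMap O K (c a i)) := by
  constructor
  · have h1 : LinearIndependent O (fun (a : Fin k) (i : ι) => algebraMap O K (c a i)) := by
      have := hc.map' ((Algebra.linearMap O K).compLeft ι) (by
        rw [LinearMap.ker_eq_bot]
        intro x y hxy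
        funext i
        exact IsFractionRing.injective O K (congrFun hxy i))
      exact this
    exact (LinearIndependent.iff_fractionRing O K).mp h1
  · intro a s
    funext κ
    have h1 := congrFun (heig a s) κ
    have h2 := congrArg (algebraMap O K) h1
    simp only [Matrix.mulVec, dotProduct, Matrix.map_apply, Pi.smul_apply, smul_eq_mul, map_sum,
      map_mul, map_intCast] at h2 ⊢
    exact h2

/-- **transfer of joint eigenvectors of integer matrices from a domain of characteristic `0` to
`ℂ`**: `k` independent joint eigenvectors with coordinates in `O` (eigenvalues in `O`) produce `k`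
independent joint eigenvectors with coordinates in `ℂ`. -/
theorem exists_complex_eigen (Amat : S → Matrix ι ι ℤ) (lam : S → O) {k : ℕ} (c : Fin k → ι → O)
    (hc : LinearIndependent O c)
    (heig : ∀ a s, ((Amat s).map (Int.cast : ℤ → O)).mulVec (c a) = lam s • c a) :
    ∃ (μ : S → ℂ) (z : Fin k → ι → ℂ), LinearIndependent ℂ z ∧
      ∀ a s, ((Amat s).map (Int.cast : ℤ → ℂ)).mulVec (z a) = μ s • z a := by
  have hchar : CharZero (FractionRing O) :=
    charZero_of_injective_algebraMap (IsFractionRing.injective O (FractionRing O))
  obtain ⟨h1, h2⟩ := exists_fraction_eigen (FractionRing O) Amat lam c hc heig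
  exact exists_complex_eigen_of_field Amat (fun s => algebraMap O (FractionRing O) (lam s)) _ h1 h2

end Transfer

end Fermat.Agent.GE9.Mult1.FieldBC
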