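/-
GATE-E / GE9-OLDQ, node O7 (helper81, for helper63's node table): **MULT1 in consumer form with
eigenvalues in `O`** (not assumed to be integers).

Same binders as `finrank_le_two_of_eigen` of `GE9/Mult1/Main.lean` (helper63), but
`lam : Nat.Primes → O` and `hP' : ∀ y ∈ P', ∀ l, T' l y = lam l • y`:

* `finrank_le_two_of_eigenO` : every `O`-submodule `P' ≤ M` on which `T' l = lam l` for all `l` has
  `finrank O P' ≤ 2`;
* `finrank_eigenTensorO_le_two` : the instance `M = O ⊗[ℤ] Lam N`, `T' l = (latT N l).baseChange O`.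

Proof: three `O`-independent eigenvectors have coordinate vectors in `O^ι` that are joint
eigenvectors of the INTEGER matrices `latMat β l` of `latT N l`; `FieldBC.exists_complex_eigen`
moves them to three `ℂ`-independent joint eigenvectors in `ℂ^ι` (fraction field, algebraic closure
of `ℚ` inside it, embedding into `ℂ`); these give three `ℂ`-independent joint eigenclasses in
`Hom_par(Γ₀(N), ℂ)`, contradicting `EigenC.exists_rel_of_three`.
-/
import Mathlib
import Fermat.Agent.GE9.Mult1.EigenLat
import Fermat.Agent.GE9.Mult1.BaseChange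
import Fermat.Agent.GE9.Mult1.FieldBC

set_option autoImplicit false

open scoped MatrixGroups TensorProduct
open CongruenceSubgroup ModularCurve ModularCurve.Period CuspForm ModularFormClass

namespace Fermat.Agent.GE9.Mult1

open Fermat.Agent.S16_helper49 Fermat.Agent.GJ.J2.Lat

variable {N : ℕ} [NeZero N]

section Complex

variable {ι : Type*} [Fintype ι]

/-- the matrix of `latT N l` in a basis `β` of the lattice. -/
noncomputable def latMat (β : Module.Basis ι ℤ (Lam N)) (l : Nat.Primes) : Matrix ι ι ℤ :=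
  fun k i => β.repr (latT N l (β i)) k

theorem latT_basis_eq (β : Module.Basis ι ℤ (Lam N)) (l : Nat.Primes) (i : ι) :
    latT N l (β i) = ∑ k, latMat β l k i • β k :=
  (β.sum_repr _).symm

/-- the complexified basis of the lattice is `ℂ`-independent. -/
theorem linearIndependent_latC_basis (β : Module.Basis ι ℤ (Lam N)) :
    LinearIndependent ℂ (fun i => latC N (β i)) := by
  classical
  let e : ι ≃ Fin (Fintype.card ι) := Fintype.equivFin ι
  let Φ : Fin (Fintype.card ι) → Additive (Gamma0 N) → ℤ :=
    fun a γ => ((β (e.symm a) : Lam N) : Additive (Gamma0 N) →+ ℤ) γ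
  let L : Lam N →ₗ[ℤ] (Additive (Gamma0 N) → ℤ) :=
    { toFun := fun Ψ γ => (Ψ : Additive (Gamma0 N) →+ ℤ) γ
      map_add' := fun Ψ Ψ' => by funext γ; rfl
      map_smul' := fun c Ψ => by funext γ; rfl }
  have hL : LinearMap.ker L = ⊥ := by
    rw [LinearMap.ker_eq_bot]
    intro Ψ Ψ' h
    apply Subtype.ext
    refine AddMonoidHom.ext fun γ => ?_
    exact congrFun h γ
  have hΦ : LinearIndependent ℤ Φ :=
    (β.linearIndependent.comp e.symm e.symm.injective).map' L hL
  have h1 : LinearIndependent ℂ (fun a => (fun γ => (Φ a γ : ℂ) : Additive (Gamma0 N) → ℂ)) :=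
    linearIndependent_intCast Φ hΦ
  rw [Fintype.linearIndependent_iff] at h1 ⊢
  intro d hd i
  have h2 := h1 (fun a => d (e.symm a)) (by
    funext γ
    have h3 := DFunLike.congr_fun hd γ
    rw [AddMonoidHom.finsetSum_apply, AddMonoidHom.zero_apply] at h3
    rw [Finset.sum_apply, Pi.zero_apply, ← h3, ← Equiv.sum_comp e.symm]
    refine Finset.sum_congr rfl fun a _ => ?_
    rw [AddMonoidHom.smul_apply, latC_apply]
    rfl) (e i)
  rw [Equiv.symm_apply_apply] at h2
  exact h2

/-- **three `ℂ`-independent joint eigenvectors of the integer matrices `latMat β l` do not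
exist.** -/
theorem not_linearIndependent_three_complex (β : Module.Basis ι ℤ (Lam N)) (μ : Nat.Primes → ℂ)
    (z : Fin 3 → ι → ℂ)
    (hz : ∀ a l, ((latMat β l).map (Int.cast : ℤ → ℂ)).mulVec (z a) = μ l • z a) :
    ¬ LinearIndependent ℂ z := by
  classical
  intro hli
  let X : Fin 3 → (Additive (Gamma0 N) →+ ℂ) := fun a => ∑ i, z a i • latC N (β i)
  have hXpar : ∀ a, X a ∈ parabolicHoms ℂ (Gamma0 N) ℂ := fun a =>
    Submodule.sum_mem _ fun i _ => Submodule.smul_mem _ _ (latC_isParabolicHom N (β i))
  have hX : ∀ a, ∀ l : Nat.Primes, cohGen N ℂ l (X a) = μ l • X a := by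
    intro a l
    show cohGen N ℂ l (∑ i, z a i • latC N (β i)) = μ l • ∑ i, z a i • latC N (β i)
    rw [map_sum]
    have h1 : ∀ i, cohGen N ℂ l (z a i • latC N (β i))
        = ∑ k, (z a i * (latMat β l k i : ℂ)) • latC N (β k) := by
      intro i
      rw [cohGen_smul, ← latC_latT, latT_basis_eq, map_sum, Finset.smul_sum]
      refine Finset.sum_congr rfl fun k _ => ?_
      rw [map_zsmul, ← Int.cast_smul_eq_zsmul ℂ, smul_smul]
    simp only [h1]
    rw [Finset.sum_comm, Finset.smul_sum]
    refine Finset.sum_congr rfl fun k _ => ?_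
    rw [← Finset.sum_smul, smul_smul]
    congr 1
    have h2 := congrFun (hz a l) k
    simp only [Matrix.mulVec, dotProduct, Matrix.map_apply, Pi.smul_apply, smul_eq_mul] at h2
    rw [← h2]
    refine Finset.sum_congr rfl fun i _ => ?_
    ring
  obtain ⟨c, hc0, hc⟩ := exists_rel_of_three μ X hXpar hX
  apply hc0
  have hind := linearIndependent_latC_basis β
  rw [Fintype.linearIndependent_iff] at hind hli
  have h3 : ∑ k, (∑ a, c a * z a k) • latC N (β k) = 0 := by
    rw [← hc]
    simp only [X, Finset.smul_sum, smul_smul, Finset.sum_smul]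
    rw [Finset.sum_comm]
  have h4 := hind _ h3
  funext a
  refine hli c ?_ a
  funext k
  simpa [Finset.sum_apply, Pi.smul_apply, smul_eq_mul] using h4 k

end Complex

variable {O : Type*} [CommRing O] [IsDomain O] [CharZero O]

/-- **MULT1, consumer form, eigenvalues in `O`.** -/
theorem finrank_le_two_of_eigenO {M : Type*} [AddCommGroup M] [Module O M] {ι : Type*} [Fintype ι]
    (β : Module.Basis ι ℤ (Lam N)) (β' : Module.Basis ι O M) (j : Lam N →+ M)
    (hj : ∀ i, j (β i) = β' i) (T' : Nat.Primes → M →ₗ[O] M)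
    (hT' : ∀ (l : Nat.Primes) (Φ : Lam N), T' l (j Φ) = j (latT N l Φ))
    (lam : Nat.Primes → O) (P' : Submodule O M)
    (hP' : ∀ y ∈ P', ∀ l : Nat.Primes, T' l y = lam l • y) :
    Module.finrank O P' ≤ 2 := by
  classical
  by_contra hcon
  have h3 : 3 ≤ Module.finrank O P' := by omega
  obtain ⟨f, hf⟩ := exists_linearIndependent_of_le_finrank h3
  -- coordinate vectors
  let c : Fin 3 → ι → O := fun a i => β'.repr (f a : M) i
  have hc : LinearIndependent O c := by
    have h1 : LinearIndependent O (fun a => (f a : M)) :=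
      hf.map' P'.subtype (Submodule.ker_subtype _)
    exact h1.map' (β'.equivFun : M →ₗ[O] (ι → O)) (LinearEquiv.ker _)
  have heig : ∀ a (l : Nat.Primes),
      ((latMat β l).map (Int.cast : ℤ → O)).mulVec (c a) = lam l • c a := by
    intro a l
    funext k
    have h1 : T' l (f a : M) = lam l • (f a : M) := hP' _ (f a).2 l
    have h2 : (f a : M) = ∑ i, c a i • j (β i) := by
      conv_lhs => rw [← β'.sum_repr (f a : M)]
      exact Finset.sum_congr rfl fun i _ => by rw [hj]
    have h3 : T' l (f a : M) = ∑ i, c a i • j (latT N l (β i)) := by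
      conv_lhs => rw [h2]
      rw [map_sum]
      exact Finset.sum_congr rfl fun i _ => by rw [map_smul, hT']
    have h4 := congrArg (fun w => β'.repr w k) (h3.symm.trans h1)
    simp only [map_sum, map_smul, Finsupp.coe_finsetSum, Finset.sum_apply, Finsupp.smul_apply,
      smul_eq_mul, repr_j β β' j hj] at h4
    simp only [Matrix.mulVec, dotProduct, Matrix.map_apply, Pi.smul_apply, smul_eq_mul]
    rw [← h4]
    refine Finset.sum_congr rfl fun i _ => ?_
    rw [mul_comm]
    rfl
  obtain ⟨μ, z, hz, hzeig⟩ :=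
    FieldBC.exists_complex_eigen (fun l : Nat.Primes => latMat β l) lam c hc heig
  exact not_linearIndependent_three_complex β μ z hzeig hz

variable (N O)

/-- the joint eigen-submodule of `O ⊗[ℤ] Lam N` for the base-changed Hecke operators, eigenvalues
in `O`. -/
noncomputable def eigenTensorO (lam : Nat.Primes → O) : Submodule O (O ⊗[ℤ] Lam N) :=
  ⨅ l : Nat.Primes, LinearMap.ker
    ((latT N l).baseChange O - lam l • (1 : Module.End O (O ⊗[ℤ] Lam N)))

variable {N O}

omit [IsDomain O] [CharZero O] in
theorem mem_eigenTensorO {lam : Nat.Primes → O} {y : O ⊗[ℤ] Lam N} :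
    y ∈ eigenTensorO N O lam ↔
      ∀ l : Nat.Primes, (latT N l).baseChange O y = lam l • y := by
  rw [eigenTensorO, Submodule.mem_iInf]
  refine forall_congr' fun l => ?_
  rw [LinearMap.mem_ker, LinearMap.sub_apply, LinearMap.smul_apply, Module.End.one_apply,
    sub_eq_zero]

/-- **MULT1 for `O ⊗[ℤ] Lam N`, eigenvalues in `O`.** -/
theorem finrank_eigenTensorO_le_two (lam : Nat.Primes → O) :
    Module.finrank O (eigenTensorO N O lam) ≤ 2 := by
  have hfree : Module.Free ℤ (Lam N) := Fermat.Agent.GJ.J2.ZStruct.free_parabolicHoms_int N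
  have hfin : Module.Finite ℤ (Lam N) := Fermat.Agent.GJ.J2.ZStruct.finite_parabolicHoms_int N
  let β := Module.Free.chooseBasis ℤ (Lam N)
  refine finrank_le_two_of_eigenO β (Algebra.TensorProduct.basis O β)
    ((TensorProduct.mk ℤ O (Lam N) 1).toAddMonoidHom)
    (fun i => by
      rw [Algebra.TensorProduct.basis_apply]
      rfl)
    (fun l => (latT N l).baseChange O)
    (fun l Φ => by
      show (latT N l).baseChange O ((1 : O) ⊗ₜ[ℤ] Φ) = (1 : O) ⊗ₜ[ℤ] (latT N l Φ)
      rw [LinearMap.baseChange_tmul])
    lam (eigenTensorO N O lam) (fun y hy l => mem_eigenTensorO.mp hy l)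

end Fermat.Agent.GE9.Mult1
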